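/-
S17lib / RedGeom / Apery  (helper2) — Project G (S17), block (RED), sub-block (R3a):
the Apéry basis.

Setting: `hF : IsCurveOfGenus K F g`, a place `inf`, a function `t` regular off `inf` with a pole of
order `d > 0` at `inf`.  `regSub inf` = the `K`-algebra of functions regular off `inf`.

An `Apery inf t d` is a family `θ : Fin d → F` in `regSub inf` with `-ord_inf (θ c) = m c ≡ c (mod d)`
MINIMAL among the nonzero elements of `regSub inf` with pole order `≡ c (mod d)`.

* `exists_apery` : it exists (with `θ 0 = 1`);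
* `Apery.eq_zero_of_sum_eq_zero` : `(θ c)` is linearly independent over `K[t]`;
* `Apery.exists_rep` : every `f ∈ regSub inf` is `∑ c, p_c(t) θ_c` with
  `d · deg p_c + m_c ≤ -ord_inf f`;
* `Apery.exists_mulMatrix` : the multiplication matrices.
-/
import Mathlib
import Fermat.Agent.S18lib.Setup.CurveRR
import Fermat.Agent.S18lib.Cech.CurveBasics
import Fermat.Agent.S18lib.RRgen.PoleDict
import Fermat.Agent.S37lib.B3.Descent

set_option autoImplicit false

noncomputable section

namespace Fermat.Agent.S17lib.RedGeom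

open AlgebraicCurve Polynomial Fermat.Agent.S18lib

variable {K F : Type*} [Field K] [Field F] [Algebra K F]

/-! ### ultrametric inequality for finite sums -/

theorem ord_sum_ge (v : Place K F) {ι : Type*} (s : Finset ι) (a : ι → F) (n : ℤ)
    (h : ∀ i ∈ s, a i = 0 ∨ n ≤ v.ord (a i)) :
    ∑ i ∈ s, a i = 0 ∨ n ≤ v.ord (∑ i ∈ s, a i) := by
  classical
  induction s using Finset.induction_on with
  | empty => left; simp
  | insert j s hj ih =>
    rw [Finset.sum_insert hj]
    exact Cech.ord_add_ge v (h j (Finset.mem_insert_self j s))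
      (ih fun i hi => h i (Finset.mem_insert_of_mem hi))

/-! ### the algebra of functions regular off `inf` -/

/-- the `K`-algebra of functions regular away from `inf` -/
def regSub (inf : Place K F) : Subalgebra K F where
  carrier := {f | ∀ P : Place K F, P ≠ inf → 0 ≤ P.ord f}
  mul_mem' := by
    intro a b ha hb P hP
    rcases eq_or_ne a 0 with rfl | ha0
    · simp
    rcases eq_or_ne b 0 with rfl | hb0
    · simp
    rw [P.ord_mul ha0 hb0]
    have := ha P hP
    have := hb P hP
    omega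
  add_mem' := by
    intro a b ha hb P hP
    rcases Cech.ord_add_ge P (n := 0) (Or.inr (ha P hP)) (Or.inr (hb P hP)) with h | h
    · rw [h]; simp
    · exact h
  algebraMap_mem' := by
    intro c P _
    rw [Cech.ord_const]

theorem mem_regSub {inf : Place K F} {f : F} :
    f ∈ regSub inf ↔ ∀ P : Place K F, P ≠ inf → 0 ≤ P.ord f := Iff.rfl

section Curve

variable {g : ℕ} (hF : IsCurveOfGenus K F g) (inf : Place K F)
include hF

/-- a nonzero function regular off `inf` has `ord_inf ≤ 0` -/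
theorem ord_inf_nonpos {f : F} (hf : f ∈ regSub inf) (hf0 : f ≠ 0) : inf.ord f ≤ 0 := by
  have := hF.hasPrincipalDivisors
  have hnn : ∀ v, 0 ≤ (divOf (K := K) f - Finsupp.single inf (inf.ord f)) v := by
    intro v
    rw [Finsupp.sub_apply, divOf_apply hf0]
    by_cases hv : v = inf
    · subst hv
      rw [Finsupp.single_eq_same, sub_self]
    · rw [Finsupp.single_eq_of_ne hv, sub_zero]
      exact hf v hv
  have h := Cech.degree_nonneg_of_nonneg hnn
  rw [map_sub, degree_divOf, Divisor.degree_single, hF.deg_eq_one inf] at h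
  simp only [Nat.cast_one, mul_one] at h
  omega

/-- a function regular everywhere is constant -/
theorem const_of_regular {f : F} (hf : f ∈ regSub inf) (hinf : 0 ≤ inf.ord f) :
    ∃ c : K, f = algebraMap K F c := by
  have hmem : f ∈ riemannRochSpace (0 : Divisor K F) := by
    rw [Cech.mem_rr_iff]
    intro v
    right
    rw [Finsupp.zero_apply, neg_zero]
    by_cases hv : v = inf
    · rw [hv]; exact hinf
    · exact hf v hv
  rw [hF.riemannRochSpace_zero] at hmem
  obtain ⟨c, hc⟩ := (Algebra.mem_bot).mp hmem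
  exact ⟨c, hc.symm⟩

/-- every `M ≥ 2g` is the exact pole order at `inf` of a function regular off `inf` -/
theorem exists_pole_order_eq (M : ℕ) (hM : 2 * g ≤ M) :
    ∃ f : F, f ∈ regSub inf ∧ f ≠ 0 ∧ inf.ord f = -(M : ℤ) := by
  set E₁ : Divisor K F := Finsupp.single inf (M : ℤ) with hE₁
  set E₀ : Divisor K F := Finsupp.single inf ((M : ℤ) - 1) with hE₀
  have hd1 : Divisor.degree E₁ = M := by
    rw [hE₁, Divisor.degree_single, hF.deg_eq_one inf]; simp
  have hd0 : Divisor.degree E₀ = (M : ℤ) - 1 := by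
    rw [hE₀, Divisor.degree_single, hF.deg_eq_one inf]; simp
  have h1 := hF.riemann_eq E₁ (by rw [hd1]; omega)
  have h0 := hF.riemann_eq E₀ (by rw [hd0]; omega)
  rw [hd1] at h1
  rw [hd0] at h0
  have hle : riemannRochSpace E₀ ≤ riemannRochSpace E₁ := by
    refine Cech.rr_mono fun v => ?_
    rw [hE₀, hE₁]
    by_cases hv : v = inf
    · subst hv
      rw [Finsupp.single_eq_same, Finsupp.single_eq_same]
      omega
    · rw [Finsupp.single_eq_of_ne hv, Finsupp.single_eq_of_ne hv]
  have : FiniteDimensional K (riemannRochSpace E₁) := hF.finiteDimensional E₁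
  have hne : riemannRochSpace E₀ ≠ riemannRochSpace E₁ := by
    intro h
    rw [h] at h0
    omega
  obtain ⟨f, hf1, hf0⟩ := SetLike.exists_of_lt (lt_of_le_of_ne hle hne)
  have hfne : f ≠ 0 := by
    rintro rfl
    exact hf0 (Submodule.zero_mem _)
  rw [Cech.mem_rr_of_ne hfne] at hf1 hf0
  push Not at hf0
  obtain ⟨v, hv⟩ := hf0
  have hreg : ∀ P : Place K F, P ≠ inf → 0 ≤ P.ord f := by
    intro P hP
    have := hf1 P
    rwa [hE₁, Finsupp.single_eq_of_ne hP, neg_zero] at this
  have hvinf : v = inf := by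
    by_contra hne'
    rw [hE₀, Finsupp.single_eq_of_ne hne', neg_zero] at hv
    have := hreg v hne'
    omega
  subst hvinf
  refine ⟨f, hreg, hfne, ?_⟩
  have h2 := hf1 v
  rw [hE₁, Finsupp.single_eq_same] at h2
  rw [hE₀, Finsupp.single_eq_same] at hv
  omega

omit hF in
/-- cancellation of the leading terms at a place of degree one -/
theorem exists_cancel (hdeg : inf.deg = 1) {f h : F} (hf0 : f ≠ 0) (hh0 : h ≠ 0)
    (hord : inf.ord f = inf.ord h) :
    ∃ a : K, f - algebraMap K F a * h = 0 ∨ inf.ord f < inf.ord (f - algebraMap K F a * h) := by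
  have hq : 0 ≤ inf.ord (f * h⁻¹) := by
    rw [inf.ord_mul hf0 (inv_ne_zero hh0), inf.ord_inv, hord]
    omega
  obtain ⟨a, ha⟩ := Fermat.Agent.S37lib.B3.exists_value inf hdeg hq
  refine ⟨a, ?_⟩
  have hfac : f - algebraMap K F a * h = (f * h⁻¹ - algebraMap K F a) * h := by
    field_simp
  rcases ha with ha | ha
  · left
    rw [hfac, ha, zero_mul]
  · right
    have hne : f * h⁻¹ - algebraMap K F a ≠ 0 := by
      intro h0
      rw [h0, Place.ord_zero] at ha
      exact lt_irrefl _ ha
    rw [hfac, inf.ord_mul hne hh0, hord]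
    omega

end Curve

/-! ### Apéry bases -/

/-- an Apéry basis of `regSub inf` over `K[t]`, `t` with a pole of order `d` at `inf` -/
structure Apery (inf : Place K F) (t : F) (d : ℕ) where
  /-- the basis -/
  θ : Fin d → F
  /-- the pole orders -/
  m : Fin d → ℕ
  reg : ∀ c, θ c ∈ regSub inf
  ne : ∀ c, θ c ≠ 0
  ord_eq : ∀ c, inf.ord (θ c) = -(m c : ℤ)
  mod_eq : ∀ c : Fin d, m c % d = (c : ℕ)
  min : ∀ c : Fin d, ∀ f ∈ regSub inf, f ≠ 0 → ∀ n : ℕ, inf.ord f = -(n : ℤ) → n % d = (c : ℕ) → m c ≤ n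

namespace Apery

variable {inf : Place K F} {t : F} {d : ℕ} (A : Apery inf t d)

/-- the order at `inf` of a term `p(t) θ_c` -/
theorem ord_term (hpole : inf.ord t = -(d : ℤ)) (hd : 0 < d) (c : Fin d) {p : K[X]}
    (hp : p ≠ 0) :
    aeval t p * A.θ c ≠ 0 ∧
      inf.ord (aeval t p * A.θ c) = -((d * p.natDegree + A.m c : ℕ) : ℤ) := by
  have hneg : inf.ord t < 0 := by rw [hpole]; omega
  obtain ⟨h1, h2⟩ := RRgen.PoleDict.ord_aeval_of_pole inf hneg hp
  refine ⟨mul_ne_zero h1 (A.ne c), ?_⟩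
  rw [inf.ord_mul h1 (A.ne c), h2, hpole, A.ord_eq c]
  push_cast
  ring

/-- **linear independence over `K[t]`** -/
theorem eq_zero_of_sum_eq_zero (hpole : inf.ord t = -(d : ℤ)) (hd : 0 < d) (p : Fin d → K[X])
    (h : ∑ c, aeval t (p c) * A.θ c = 0) : p = 0 := by
  classical
  by_contra hp
  set s : Finset (Fin d) := Finset.univ.filter fun c => p c ≠ 0 with hs
  have hsne : s.Nonempty := by
    by_contra hemp
    rw [Finset.not_nonempty_iff_eq_empty] at hemp
    apply hp
    funext c
    by_contra hc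
    have : c ∈ s := by rw [hs, Finset.mem_filter]; exact ⟨Finset.mem_univ c, hc⟩
    rw [hemp] at this
    exact absurd this (Finset.notMem_empty c)
  set w : Fin d → ℕ := fun c => d * (p c).natDegree + A.m c with hw
  obtain ⟨c₀, hc₀s, hc₀max⟩ := Finset.exists_max_image s w hsne
  have hc₀ : p c₀ ≠ 0 := by
    rw [hs, Finset.mem_filter] at hc₀s
    exact hc₀s.2
  obtain ⟨hne₀, hord₀⟩ := A.ord_term hpole hd c₀ hc₀
  -- the other terms have strictly larger order
  have hothers : ∀ c ∈ Finset.univ.erase c₀, aeval t (p c) * A.θ c = 0 ∨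
      -(w c₀ : ℤ) + 1 ≤ inf.ord (aeval t (p c) * A.θ c) := by
    intro c hc
    rw [Finset.mem_erase] at hc
    by_cases hpc : p c = 0
    · left
      rw [hpc, map_zero, zero_mul]
    · right
      obtain ⟨-, hordc⟩ := A.ord_term hpole hd c hpc
      rw [hordc]
      have hcs : c ∈ s := by rw [hs, Finset.mem_filter]; exact ⟨Finset.mem_univ c, hpc⟩
      have hle : w c ≤ w c₀ := hc₀max c hcs
      have hne : w c ≠ w c₀ := by
        intro heq
        apply hc.1
        have h1 : w c % d = (c : ℕ) := by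
          rw [hw]
          simp only
          rw [Nat.mul_add_mod, A.mod_eq c]
        have h2 : w c₀ % d = (c₀ : ℕ) := by
          rw [hw]
          simp only
          rw [Nat.mul_add_mod, A.mod_eq c₀]
        rw [heq, h2] at h1
        exact Fin.ext h1.symm
      have : w c < w c₀ := lt_of_le_of_ne hle hne
      show -(w c₀ : ℤ) + 1 ≤ -((w c : ℕ) : ℤ)
      omega
  have hsum := ord_sum_ge inf (Finset.univ.erase c₀) (fun c => aeval t (p c) * A.θ c)
    (-(w c₀ : ℤ) + 1) hothers
  have hsplit : aeval t (p c₀) * A.θ c₀ + ∑ c ∈ Finset.univ.erase c₀, aeval t (p c) * A.θ c = 0 :=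
    (Finset.add_sum_erase Finset.univ (fun c => aeval t (p c) * A.θ c) (Finset.mem_univ c₀)).trans h
  have heq : ∑ c ∈ Finset.univ.erase c₀, aeval t (p c) * A.θ c = -(aeval t (p c₀) * A.θ c₀) :=
    eq_neg_of_add_eq_zero_right hsplit
  rw [heq] at hsum
  rcases hsum with h0 | h0
  · exact hne₀ (neg_eq_zero.mp h0)
  · rw [Cech.ord_neg, hord₀] at h0
    have : ((d * (p c₀).natDegree + A.m c₀ : ℕ) : ℤ) = (w c₀ : ℤ) := rfl
    omega

omit A in
theorem aeval_mem_regSub (ht : t ∈ regSub inf) (q : K[X]) : aeval t q ∈ regSub inf :=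
  Algebra.adjoin_le (Set.singleton_subset_iff.mpr ht) (aeval_mem_adjoin_singleton K t)

theorem sum_single (c : Fin d) (q : K[X]) :
    ∑ c', aeval t ((Pi.single c q : Fin d → K[X]) c') * A.θ c' = aeval t q * A.θ c := by
  classical
  rw [Finset.sum_eq_single c]
  · rw [Pi.single_eq_same]
  · intro c' _ hc'
    rw [Pi.single_eq_of_ne hc', map_zero, zero_mul]
  · intro h
    exact absurd (Finset.mem_univ c) h

variable {g : ℕ}

/-- spanning with degree control, nonzero functions of pole order `n` -/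
theorem exists_rep_aux (hF : IsCurveOfGenus K F g) (hpole : inf.ord t = -(d : ℤ)) (hd : 0 < d)
    (ht : t ∈ regSub inf) (n : ℕ) :
    ∀ f ∈ regSub inf, f ≠ 0 → inf.ord f = -(n : ℤ) →
      ∃ p : Fin d → K[X], f = ∑ c, aeval t (p c) * A.θ c ∧
        ∀ c, p c ≠ 0 → d * (p c).natDegree + A.m c ≤ n := by
  induction n using Nat.strong_induction_on with
  | _ n ih =>
  intro f hf hf0 hord
  set c : Fin d := ⟨n % d, Nat.mod_lt n hd⟩ with hc
  have hmin : A.m c ≤ n := A.min c f hf hf0 n hord rfl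
  have hmodc : A.m c % d = n % d := A.mod_eq c
  obtain ⟨k, hk⟩ : ∃ k, n = d * k + A.m c := by
    have h1 : (n - A.m c) % d = 0 := Nat.sub_mod_eq_zero_of_mod_eq hmodc.symm
    refine ⟨(n - A.m c) / d, ?_⟩
    have h2 := Nat.div_add_mod (n - A.m c) d
    omega
  obtain ⟨hh0, hhord⟩ := A.ord_term hpole hd c (pow_ne_zero k (X_ne_zero (R := K)))
  rw [natDegree_X_pow, ← hk] at hhord
  set h : F := aeval t (X ^ k : K[X]) * A.θ c with hh
  have hhreg : h ∈ regSub inf := mul_mem (aeval_mem_regSub ht _) (A.reg c)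
  obtain ⟨a, ha⟩ := exists_cancel inf (hF.deg_eq_one inf) hf0 hh0 (hord.trans hhord.symm)
  set q : K[X] := C a * X ^ k with hq
  have hqh : aeval t q * A.θ c = algebraMap K F a * h := by
    rw [hq, hh, map_mul, aeval_C, mul_assoc]
  have hqdeg : d * q.natDegree + A.m c ≤ n := by
    have : q.natDegree ≤ k := natDegree_C_mul_X_pow_le a k
    have := Nat.mul_le_mul_left d this
    omega
  by_cases hf' : f - algebraMap K F a * h = 0
  · refine ⟨Pi.single c q, ?_, ?_⟩
    · rw [A.sum_single, hqh]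
      exact sub_eq_zero.mp hf'
    · intro c' hc'
      have hcc : c' = c := by
        by_contra hne
        exact hc' (by rw [Pi.single_eq_of_ne hne])
      rw [hcc, Pi.single_eq_same]
      exact hqdeg
  · have hlt : inf.ord f < inf.ord (f - algebraMap K F a * h) := ha.resolve_left hf'
    have hf'reg : f - algebraMap K F a * h ∈ regSub inf :=
      sub_mem hf (mul_mem (Subalgebra.algebraMap_mem _ a) hhreg)
    have hnonpos := ord_inf_nonpos hF inf hf'reg hf'
    obtain ⟨n', hn'⟩ : ∃ n' : ℕ, inf.ord (f - algebraMap K F a * h) = -(n' : ℤ) :=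
      ⟨(-inf.ord (f - algebraMap K F a * h)).toNat, by omega⟩
    have hn'lt : n' < n := by omega
    obtain ⟨p', hp'sum, hp'deg⟩ := ih n' hn'lt _ hf'reg hf' hn'
    refine ⟨p' + Pi.single c q, ?_, ?_⟩
    · have : ∑ c', aeval t ((p' + Pi.single c q : Fin d → K[X]) c') * A.θ c' =
          ∑ c', aeval t (p' c') * A.θ c' + ∑ c', aeval t ((Pi.single c q : Fin d → K[X]) c') * A.θ c' := by
        rw [← Finset.sum_add_distrib]
        refine Finset.sum_congr rfl fun c' _ => ?_
        rw [Pi.add_apply, map_add, add_mul]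
      rw [this, ← hp'sum, A.sum_single, hqh]
      ring
    · intro c' hc'
      by_cases hcc : c' = c
      · rw [hcc, Pi.add_apply, Pi.single_eq_same]
        have h1 : d * (p' c).natDegree + A.m c ≤ n := by
          by_cases hp0 : p' c = 0
          · rw [hp0, natDegree_zero]
            omega
          · have := hp'deg c hp0
            omega
        have h2 := natDegree_add_le (p' c) q
        rcases le_max_iff.mp h2 with h3 | h3
        · have := Nat.mul_le_mul_left d h3
          omega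
        · have := Nat.mul_le_mul_left d h3
          omega
      · rw [Pi.add_apply, Pi.single_eq_of_ne hcc, add_zero] at hc' ⊢
        have := hp'deg c' hc'
        omega

/-- **spanning with degree control**: every function regular off `inf` is `∑ p_c(t) θ_c` with
`d · deg p_c + m_c ≤ -ord_inf f` -/
theorem exists_rep (hF : IsCurveOfGenus K F g) (hpole : inf.ord t = -(d : ℤ)) (hd : 0 < d)
    (ht : t ∈ regSub inf) {f : F} (hf : f ∈ regSub inf) :
    ∃ p : Fin d → K[X], f = ∑ c, aeval t (p c) * A.θ c ∧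
      ∀ c, p c ≠ 0 → ((d * (p c).natDegree + A.m c : ℕ) : ℤ) ≤ -inf.ord f := by
  rcases eq_or_ne f 0 with rfl | hf0
  · exact ⟨0, by simp, fun c hc => absurd rfl hc⟩
  have hnonpos := ord_inf_nonpos hF inf hf hf0
  obtain ⟨n, hn⟩ : ∃ n : ℕ, inf.ord f = -(n : ℤ) := ⟨(-inf.ord f).toNat, by omega⟩
  obtain ⟨p, hp1, hp2⟩ := A.exists_rep_aux hF hpole hd ht n f hf hf0 hn
  refine ⟨p, hp1, fun c hc => ?_⟩
  have := hp2 c hc
  rw [hn]
  omega

/-- **the multiplication matrices**: `b θ_i = ∑_l n_{il}(t) θ_l` with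
`d · deg n_{il} + m_l ≤ -ord_inf b + m_i` -/
theorem exists_mulMatrix (hF : IsCurveOfGenus K F g) (hpole : inf.ord t = -(d : ℤ)) (hd : 0 < d)
    (ht : t ∈ regSub inf) {b : F} (hb : b ∈ regSub inf) :
    ∃ n : Fin d → Fin d → K[X], ∀ i, b * A.θ i = ∑ l, aeval t (n i l) * A.θ l ∧
      ∀ l, n i l ≠ 0 → ((d * (n i l).natDegree + A.m l : ℕ) : ℤ) ≤ -inf.ord b + A.m i := by
  rcases eq_or_ne b 0 with rfl | hb0
  · exact ⟨0, fun i => ⟨by simp, fun l hl => absurd rfl hl⟩⟩
  have key : ∀ i, ∃ p : Fin d → K[X], b * A.θ i = ∑ l, aeval t (p l) * A.θ l ∧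
      ∀ l, p l ≠ 0 → ((d * (p l).natDegree + A.m l : ℕ) : ℤ) ≤ -inf.ord b + A.m i := by
    intro i
    obtain ⟨p, hp1, hp2⟩ := A.exists_rep hF hpole hd ht (mul_mem hb (A.reg i))
    refine ⟨p, hp1, fun l hl => ?_⟩
    have := hp2 l hl
    rw [inf.ord_mul hb0 (A.ne i), A.ord_eq i] at this
    omega
  choose n hn using key
  exact ⟨n, hn⟩

end Apery

/-! ### existence -/

/-- **an Apéry basis exists**, with `θ 0 = 1` -/
theorem exists_apery {g : ℕ} (hF : IsCurveOfGenus K F g) (inf : Place K F) (t : F) (d : ℕ)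
    (hd : 0 < d) : ∃ A : Apery inf t d, A.θ ⟨0, hd⟩ = 1 := by
  classical
  have hex : ∀ c : Fin d, ∃ n : ℕ, n % d = (c : ℕ) ∧
      ∃ f : F, f ∈ regSub inf ∧ f ≠ 0 ∧ inf.ord f = -(n : ℤ) := by
    intro c
    refine ⟨(c : ℕ) + d * (2 * g), ?_, ?_⟩
    · rw [Nat.add_mul_mod_self_left]
      exact Nat.mod_eq_of_lt c.2
    · refine exists_pole_order_eq hF inf _ ?_
      have : 2 * g ≤ d * (2 * g) := Nat.le_mul_of_pos_left _ hd
      omega
  have hfind0 : ∀ c : Fin d, (c : ℕ) = 0 → Nat.find (hex c) = 0 := by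
    intro c hc
    have : Nat.find (hex c) ≤ 0 :=
      Nat.find_min' (hex c) ⟨by rw [hc]; exact Nat.zero_mod d, 1, one_mem _, one_ne_zero, by simp⟩
    omega
  refine ⟨{
    θ := fun c => if (c : ℕ) = 0 then 1 else (Nat.find_spec (hex c)).2.choose
    m := fun c => Nat.find (hex c)
    reg := ?_
    ne := ?_
    ord_eq := ?_
    mod_eq := fun c => (Nat.find_spec (hex c)).1
    min := ?_ }, ?_⟩
  · intro c
    show (if (c : ℕ) = 0 then (1 : F) else (Nat.find_spec (hex c)).2.choose) ∈ regSub inf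
    split_ifs with hc
    · exact one_mem _
    · exact (Nat.find_spec (hex c)).2.choose_spec.1
  · intro c
    show (if (c : ℕ) = 0 then (1 : F) else (Nat.find_spec (hex c)).2.choose) ≠ 0
    split_ifs with hc
    · exact one_ne_zero
    · exact (Nat.find_spec (hex c)).2.choose_spec.2.1
  · intro c
    show inf.ord (if (c : ℕ) = 0 then (1 : F) else (Nat.find_spec (hex c)).2.choose) =
      -((Nat.find (hex c) : ℕ) : ℤ)
    split_ifs with hc
    · rw [hfind0 c hc]
      simp
    · exact (Nat.find_spec (hex c)).2.choose_spec.2.2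
  · intro c f hf hf0 n hn hmod
    exact Nat.find_min' (hex c) ⟨hmod, f, hf, hf0, hn⟩
  · simp

/-- a nonconstant function regular off `inf` has a pole at `inf` -/
theorem ord_inf_neg_of_nonconst {g : ℕ} (hF : IsCurveOfGenus K F g) (inf : Place K F) {t : F}
    (htc : ∀ c : K, t ≠ algebraMap K F c) (hreg : ∀ P : Place K F, P ≠ inf → 0 ≤ P.ord t) :
    inf.ord t < 0 := by
  by_contra h
  push Not at h
  obtain ⟨c, hc⟩ := const_of_regular hF inf hreg h
  exact htc c hc

/-- **the Apéry basis, in the shape consumed by `Red/Main.lean`**: for `t` regular off `inf` with a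
pole at `inf`, the algebra of functions regular off `inf` is free over `K[t]` on a finite family
`θ` containing `1`. -/
theorem exists_apery_basis {g : ℕ} (hF : IsCurveOfGenus K F g) (inf : Place K F) (t : F)
    (hreg : ∀ P : Place K F, P ≠ inf → 0 ≤ P.ord t) (hpole : inf.ord t < 0) :
    ∃ (d : ℕ) (θ : Fin d → F), (∃ c₀, θ c₀ = 1) ∧ (∀ c P, P ≠ inf → 0 ≤ P.ord (θ c)) ∧
      (∀ p : Fin d → K[X], ∑ c, Polynomial.aeval t (p c) * θ c = 0 → p = 0) ∧
      (∀ f : F, (∀ P : Place K F, P ≠ inf → 0 ≤ P.ord f) →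
        ∃ p : Fin d → K[X], f = ∑ c, Polynomial.aeval t (p c) * θ c) := by
  obtain ⟨d, hd⟩ : ∃ d : ℕ, inf.ord t = -(d : ℤ) := ⟨(-inf.ord t).toNat, by omega⟩
  have hd0 : 0 < d := by omega
  obtain ⟨A, hA⟩ := exists_apery hF inf t d hd0
  refine ⟨d, A.θ, ⟨_, hA⟩, fun c P hP => A.reg c P hP,
    fun p hp => A.eq_zero_of_sum_eq_zero hd hd0 p hp, fun f hf => ?_⟩
  obtain ⟨p, hp, -⟩ := A.exists_rep hF hd hd0 hreg hf
  exact ⟨p, hp⟩

end Fermat.Agent.S17lib.RedGeom
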